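import Fermat.Agent.S31.Apply

/-!
# Convenience forms of the transfer lemma `S31.transfer_level`

* `transfer_level_index`: the relation is indexed by an arbitrary finite type/finset, repetitions
  of group elements are allowed.
-/

set_option autoImplicit false

namespace Fermat.Agent.S31

open CuspForm

variable {p : ℕ} {N : ℕ} [NeZero N] {S : Finset ℕ}
  {𝒪 : Type} [CommRing 𝒪] [IsDomain 𝒪] [IsDiscreteValuationRing 𝒪]
  [IsAdicComplete (IsLocalRing.maximalIdeal 𝒪) 𝒪]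
  {θ : CuspForm.heckeAlgebra N 2 (↑S : Set ℕ) →+* IsLocalRing.ResidueField 𝒪}
  {T : Type} [CommRing T] [IsLocalRing T] [IsNoetherianRing T]
  [IsAdicComplete (IsLocalRing.maximalIdeal T) T] [Algebra 𝒪 T] [IsLocalHom (algebraMap 𝒪 T)]
  [Module.Finite 𝒪 T] [Module.Free 𝒪 T]

/-- **Transfer, indexed form.**  A relation `∑ᵢ aᵢ gᵢ = 0` on `M.W` (repetitions among the `gᵢ`
allowed) holds on `V / 𝔪ⁿ V`. -/
theorem transfer_level_index (hdens : FrobeniusDensity) (hp : p.Prime) (hpS : p ∈ S)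
    (hNS : ∀ q : ℕ, q.Prime → q ∣ N → q ∈ S)
    (H : CuspForm.HeckeGaloisRepDatum N (↑S : Set ℕ) 𝒪 θ T) (n k : ℕ)
    (M : HeckeGaloisModule N (↑S : Set ℕ) p k)
    (hM : ∀ a : heckeAlgebra N 2 (↑S : Set ℕ), (∀ w : M.W, a • w = 0) →
      H.π a ∈ IsLocalRing.maximalIdeal T ^ n)
    {ι : Type*} (s : Finset ι) (a : ι → heckeAlgebra N 2 (↑S : Set ℕ)) (g : ι → GQ)
    (hx : ∀ w : M.W, ∑ i ∈ s, a i • M.r (g i) w = 0) (v : H.ρ.V) :
    ∑ i ∈ s, H.π (a i) • H.ρ.ρ (g i) v ∈
      (IsLocalRing.maximalIdeal T ^ n) • (⊤ : Submodule T H.ρ.V) := by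
  classical
  have key := transfer_level hdens hp hpS hNS H n k M hM (s.image g)
    (fun γ => ∑ i ∈ s with g i = γ, a i) (by
      intro w
      rw [← hx w, ← Finset.sum_fiberwise_of_maps_to (g := g) (t := s.image g)
        (fun i hi => Finset.mem_image_of_mem g hi)]
      refine Finset.sum_congr rfl fun γ _ => ?_
      rw [Finset.sum_smul]
      refine Finset.sum_congr rfl fun i hi => ?_
      rw [(Finset.mem_filter.mp hi).2]) v
  have e : ∑ γ ∈ s.image g, H.π (∑ i ∈ s with g i = γ, a i) • H.ρ.ρ γ v =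
      ∑ i ∈ s, H.π (a i) • H.ρ.ρ (g i) v := by
    rw [← Finset.sum_fiberwise_of_maps_to (g := g) (t := s.image g)
      (fun i hi => Finset.mem_image_of_mem g hi)]
    refine Finset.sum_congr rfl fun γ _ => ?_
    rw [map_sum, Finset.sum_smul]
    refine Finset.sum_congr rfl fun i hi => ?_
    rw [(Finset.mem_filter.mp hi).2]
  rwa [e] at key

end Fermat.Agent.S31
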